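import Fermat.Agent.RT.Tame
import Fermat.Agent.TW.Global
import Fermat.Agent.Density.Places
import Fermat.Agent.Root.SummarySurjectiveAdelic
import Fermat.Agent.JTorsion.CycloRes

/-!
# Removing tame ramification from an abelian character

A character of `G_ℚ` with values in a finite abelian `p`-group has, at a prime `q ≠ p`, a cyclic
image of inertia of order dividing `q - 1`, as a Frobenius element raises tame inertia to the power
`q`. Inertia at `q` acts on the `q`-th roots of unity by all units, so a character of `ℚ(μ_q)`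
agrees with the given one there.
-/

set_option autoImplicit false
set_option linter.unusedSectionVars false
set_option linter.style.haveILetI false

noncomputable section

open FA.JTorsion (cycP)
open scoped Pointwise

local notation "Qb" => AlgebraicClosure ℚ
local notation "GQ" => AlgebraicClosure ℚ ≃ₐ[ℚ] AlgebraicClosure ℚ

namespace FA.KroneckerWeber

/-- A finite Galois extension is unramified outside a finite set of primes. -/
theorem exists_unramified_set (F : IntermediateField ℚ Qb) [FiniteDimensional ℚ F] [IsGalois ℚ F] :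
    ∃ S : Finset ℕ, ∀ q : ℕ, q.Prime → q ∉ S → ∀ A : ValuationSubring Qb, A.LiesOverPrime q →
      A.inertiaSubgroupIn ℚ ≤ F.fixingSubgroup := by
  have : NumberField F := { }
  have : Normal ℚ F := IsGalois.to_normal
  obtain ⟨m, hm0, hm⟩ := FA.Density.exists_unramified F
  refine ⟨m.divisors, fun q hq hqS A hA σ hσ => ?_⟩
  have hqm : ¬ q ∣ m := fun h => hqS (Nat.mem_divisors.mpr ⟨h, hm0⟩)
  let P : Ideal (NumberField.RingOfIntegers F) :=
    (FA.Deform.primeAt A).comap (FA.Local.intIncl F)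
  have hqP : (q : NumberField.RingOfIntegers F) ∈ P := by
    show FA.Local.intIncl F q ∈ FA.Deform.primeAt A
    rw [map_natCast, FA.Deform.mem_primeAt]
    exact hA
  have hP : P.IsPrime := Ideal.comap_isPrime _ _
  have hP0 : P ≠ ⊥ := fun h => by
    rw [h, Ideal.mem_bot] at hqP
    exact hq.ne_zero (by exact_mod_cast hqP)
  have h1 : σ.restrictNormal F = 1 := hm q P hq (hP.isMaximal hP0) hqP hqm _ fun y => by
    show FA.Local.intIncl F ((σ.restrictNormal F) • y - y) ∈ FA.Deform.primeAt A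
    rw [FA.Deform.mem_primeAt, A.mem_nonunits_iff]
    have e : ((FA.Local.intIncl F ((σ.restrictNormal F) • y - y) : FA.Deform.ZBar) : Qb) =
        σ ((y : F) : Qb) - ((y : F) : Qb) := by
      rw [FA.Local.coe_intIncl]
      show ((((σ.restrictNormal F) (y : F) - (y : F) : F) : Qb)) = _
      push_cast
      congr 1
      exact AlgEquiv.restrictNormal_commutes σ F (y : F)
    rw [e]
    exact (FA.Local.inert_of_mem_inertiaSubgroupIn A hσ).sub_lt _ ((A.valuation_le_one_iff _).mpr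
      (FA.Deform.zbar_mem_valuationSubring A (FA.Local.intIncl F y)))
  refine (IntermediateField.mem_fixingSubgroup_iff F σ).mpr fun x hx => ?_
  have h2 := AlgEquiv.restrictNormal_commutes σ F ⟨x, hx⟩
  rw [h1] at h2
  exact h2.symm

variable (q : ℕ) [hq : Fact q.Prime]

/-- The cyclotomic character modulo `q`. -/
def omega : GQ →* (ZMod (q ^ 1))ˣ :=
  (Units.map ((PadicInt.toZModPow 1).toMonoidHom : ℤ_[q] →* _)).comp (cycP q)

theorem omega_eq_natCast {σ : GQ} {a : ℕ} (h : ∀ μ : Qb, μ ^ q = 1 → σ μ = μ ^ a) :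
    ((omega q σ : (ZMod (q ^ 1))ˣ) : ZMod (q ^ 1)) = a :=
  FA.RT.Tate.cycP_eq_natCast fun μ hμ => h μ (by rwa [pow_one] at hμ)

theorem omega_eq_one {σ : GQ} (h : ∀ μ : Qb, μ ^ q = 1 → σ μ = μ) : omega q σ = 1 :=
  Units.ext (by
    rw [omega_eq_natCast q (a := 1) fun μ hμ => by rw [pow_one, h μ hμ], Nat.cast_one,
      Units.val_one])

theorem omega_inertia {l : ℕ} (hl : l.Prime) (hlq : l ≠ q) {A : ValuationSubring Qb}
    (hA : A.LiesOverPrime l) {σ : GQ} (hσ : σ ∈ A.inertiaSubgroupIn ℚ) : omega q σ = 1 := by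
  show Units.map _ (cycP q σ) = 1
  rw [FA.JTorsion.cycP_inertia q hl hlq hA hσ, map_one]

theorem exists_field_omega : ∃ L : IntermediateField ℚ Qb, FiniteDimensional ℚ L ∧
    ∀ σ : GQ, (∀ a ∈ L, σ a = a) → omega q σ = 1 := by
  obtain ⟨L, hL, h⟩ := FA.JTorsion.exists_field_cycP q 1
  exact ⟨L, hL, fun σ hσ => Units.ext (h σ hσ)⟩

theorem isOpen_ker_omega : IsOpen ((omega q).ker : Set GQ) := by
  obtain ⟨L, hL, h⟩ := exists_field_omega q
  exact Subgroup.isOpen_mono (H₁ := L.fixingSubgroup) (fun σ hσ => MonoidHom.mem_ker.mpr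
    (h σ fun a ha => (IntermediateField.mem_fixingSubgroup_iff L σ).mp hσ a ha))
    (IntermediateField.fixingSubgroup_isOpen L)

/-- Inertia at `q` acts on the `q`-th roots of unity by every unit. -/
theorem exists_inertia_omega_eq {A : ValuationSubring Qb} (hA : A.LiesOverPrime q)
    (u : (ZMod (q ^ 1))ˣ) : ∃ σ ∈ A.inertiaSubgroupIn ℚ, omega q σ = u := by
  let H : Subgroup GQ := ((A.inertiaSubgroupIn ℚ).map (omega q)).comap (omega q)
  obtain ⟨L, hL, hfix⟩ := exists_field_omega q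
  have := hL
  have hH : H = ⊤ := FA.Local.eq_top_of_inertia_le H L
    (fun σ hσ => Subgroup.mem_comap.mpr (by rw [hfix σ hσ]; exact one_mem _)) fun l hl => by
      rcases eq_or_ne l q with rfl | hlq
      · exact ⟨A, hA, fun σ hσ => Subgroup.mem_comap.mpr (Subgroup.mem_map_of_mem _ hσ)⟩
      · obtain ⟨B, hB⟩ := FA.Deform.exists_liesOverPrime hl
        exact ⟨B, hB, fun σ hσ =>
          Subgroup.mem_comap.mpr (by rw [omega_inertia q hl hlq hB hσ]; exact one_mem _)⟩
  have : NeZero (q ^ 1) := ⟨pow_ne_zero _ hq.out.ne_zero⟩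
  obtain ⟨σ, hσ⟩ := FA.PadicImage.exists_cyclotomic_action_pow (p := q) 1
    (a := (u : ZMod (q ^ 1)).val) fun hd => by
      have hcop : ((u : ZMod (q ^ 1)).val).Coprime q :=
        (ZMod.val_coe_unit_coprime u).coprime_dvd_right (dvd_pow_self q one_ne_zero)
      exact hq.out.one_lt.ne' (Nat.dvd_one.mp (hcop.gcd_eq_one ▸ Nat.dvd_gcd hd dvd_rfl))
  obtain ⟨τ, hτ, hτσ⟩ := Subgroup.mem_comap.mp (hH ▸ Subgroup.mem_top σ : σ ∈ H)
  refine ⟨τ, hτ, hτσ.trans (Units.ext ?_)⟩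
  rw [omega_eq_natCast q fun μ hμ => hσ μ (by rwa [pow_one]), ZMod.natCast_zmod_val]

variable {q}

/-- **Untwisting**: at a prime `q ≠ p` some character of `ℚ(μ_q)` agrees on inertia with a given
character with values in an abelian `p`-group. -/
theorem exists_untwist {p : ℕ} (hp : p.Prime) (hpq : p ≠ q) {M : Type} [CommGroup M] [Finite M]
    (hM : IsPGroup p M) (χ : GQ →* M) (hopen : IsOpen (χ.ker : Set GQ)) :
    ∃ ψ : GQ →* M, IsOpen (ψ.ker : Set GQ) ∧ (∀ σ, omega q σ = 1 → ψ σ = 1) ∧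
      ∀ B : ValuationSubring Qb, B.LiesOverPrime q → ∀ σ ∈ B.inertiaSubgroupIn ℚ,
        χ σ = ψ σ := by
  have : NeZero (q ^ 1) := ⟨pow_ne_zero _ hq.out.ne_zero⟩
  haveI := Fact.mk hp
  obtain ⟨A, hA⟩ := FA.Deform.exists_liesOverPrime hq.out
  obtain ⟨φ, hφ⟩ := FA.Deform.exists_isFrobeniusAt hq.out hA
  obtain ⟨s, hs, hgen⟩ := FA.RT.exists_tame_gen hp hq.out hpq hA
  obtain ⟨v, hv⟩ : ∃ v, (q - 1).factorization p = v := ⟨_, rfl⟩
  have hq1 : q - 1 ≠ 0 := by have := hq.out.two_le; omega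
  obtain ⟨m, hm⟩ : p ^ v ∣ q - 1 := hv ▸ Nat.ordProj_dvd (q - 1) p
  have hm0 : m ≠ 0 := fun h => hq1 (by rw [hm, h, mul_zero])
  have hcard : Nat.card (ZMod (q ^ 1))ˣ = q - 1 := by
    rw [Nat.card_eq_fintype_card, ZMod.card_units_eq_totient, pow_one, Nat.totient_prime hq.out]
  let ω' : GQ →* (ZMod (q ^ 1))ˣ := (powMonoidHom m).comp (omega q)
  have hω'pow : ∀ σ, ω' σ ^ p ^ v = 1 := fun σ => by
    show (omega q σ ^ m) ^ p ^ v = 1
    rw [← pow_mul, mul_comm, ← hm, ← hcard, pow_card_eq_one']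
  have hχp : ∀ σ ∈ A.inertiaSubgroupIn ℚ, ∃ k : ℕ, χ σ ^ p ^ k = 1 := fun σ _ => hM _
  -- the order of the image of the tame generator
  have hs1 : χ s ^ (q - 1) = 1 := by
    have h := FA.RT.tame_relation χ hp hq.out hpq hA hopen hχp hφ hs
    rw [mul_comm, mul_left_inj] at h
    have h' : χ s ^ (q - 1) * χ s = χ s := by
      rw [← pow_succ, Nat.sub_add_cancel hq.out.one_le, ← h]
    exact mul_eq_right.mp h'
  have hχs : orderOf (χ s) ∣ p ^ v := by
    obtain ⟨k, hk⟩ := hM (χ s)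
    obtain ⟨j, -, hj⟩ := (Nat.dvd_prime_pow hp).mp (orderOf_dvd_of_pow_eq_one hk)
    rw [hj, Nat.pow_dvd_pow_iff_le_right hp.one_lt, ← hv,
      ← hp.pow_dvd_iff_le_factorization hq1, ← hj]
    exact orderOf_dvd_of_pow_eq_one hs1
  -- generation of the joint image
  have hopen' : IsOpen ((χ.prod ω').ker : Set GQ) := by
    rw [MonoidHom.ker_prod, Subgroup.coe_inf]
    exact hopen.inter (Subgroup.isOpen_mono (fun σ hσ => MonoidHom.mem_ker.mpr (by
      show omega q σ ^ m = 1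
      rw [MonoidHom.mem_ker.mp hσ, one_pow])) (isOpen_ker_omega q))
  have hjoint : ∀ σ ∈ A.inertiaSubgroupIn ℚ, ∃ i : ℕ, χ σ = χ s ^ i ∧ ω' σ = ω' s ^ i := by
    intro σ hσ
    obtain ⟨i, hi⟩ := hgen _ (χ.prod ω') hopen' (fun τ _ => by
      obtain ⟨k, hk⟩ := hM (χ τ)
      refine ⟨k + v, Prod.ext ?_ ?_⟩
      · show χ τ ^ p ^ (k + v) = 1
        rw [pow_add, pow_mul, hk, one_pow]
      · show ω' τ ^ p ^ (k + v) = 1
        rw [pow_add, mul_comm, pow_mul, hω'pow, one_pow]) σ hσ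
    exact ⟨i, congrArg Prod.fst hi, congrArg Prod.snd hi⟩
  have hall : ∀ σ, ∃ i : ℕ, ω' σ = ω' s ^ i := fun σ => by
    obtain ⟨τ, hτ, e⟩ := exists_inertia_omega_eq q hA (omega q σ)
    obtain ⟨i, -, hi⟩ := hjoint τ hτ
    refine ⟨i, ?_⟩
    rw [← hi]
    show omega q σ ^ m = omega q τ ^ m
    rw [e]
  have hord : p ^ v ∣ orderOf (ω' s) := by
    have : IsCyclic (ZMod (q ^ 1))ˣ := by rw [pow_one]; infer_instance
    obtain ⟨u, hu⟩ := IsCyclic.exists_generator (α := (ZMod (q ^ 1))ˣ)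
    obtain ⟨τ, -, rfl⟩ := exists_inertia_omega_eq q hA u
    obtain ⟨i, hi⟩ := hall τ
    refine dvd_trans (dvd_of_eq ?_) (hi ▸ orderOf_pow_dvd i)
    show p ^ v = orderOf (omega q τ ^ m)
    rw [orderOf_pow_of_dvd hm0 (by rw [orderOf_eq_card_of_forall_mem_zpowers hu, hcard, hm]
                                   exact dvd_mul_left _ _),
      orderOf_eq_card_of_forall_mem_zpowers hu, hcard, hm, Nat.mul_div_cancel _ (by omega)]
  choose i hi using hall
  have hcong : ∀ {a b : ℕ}, ω' s ^ a = ω' s ^ b → χ s ^ a = χ s ^ b := fun {a b} h =>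
    pow_eq_pow_iff_modEq.mpr ((pow_eq_pow_iff_modEq.mp h).of_dvd (hχs.trans hord))
  let ψ : GQ →* M := MonoidHom.mk' (fun σ => χ s ^ i σ) fun σ τ => by
    show χ s ^ i (σ * τ) = _
    rw [← pow_add]
    exact hcong (by rw [pow_add, ← hi, ← hi, ← hi, map_mul])
  have hψ : ∀ σ, omega q σ = 1 → ψ σ = 1 := fun σ hσ => by
    show χ s ^ i σ = 1
    rw [← pow_zero (χ s)]
    refine hcong ?_
    rw [pow_zero, ← hi]
    show omega q σ ^ m = 1
    rw [hσ, one_pow]
  have hagree : ∀ σ ∈ A.inertiaSubgroupIn ℚ, χ σ = ψ σ := fun σ hσ => by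
    obtain ⟨j, hj, hj'⟩ := hjoint σ hσ
    rw [hj]
    exact hcong (hj'.symm.trans (hi σ))
  refine ⟨ψ, Subgroup.isOpen_mono (fun σ hσ => MonoidHom.mem_ker.mpr
    (hψ σ (MonoidHom.mem_ker.mp hσ))) (isOpen_ker_omega q), hψ, fun B hB σ hσ => ?_⟩
  obtain ⟨τ, hτ⟩ := FA.TW.exists_smul_eq_of_liesOver hq.out hB hA
  have h := hagree _ (hτ ▸ FA.TW.conj_mem_inertia hq.out hB hσ τ)
  rwa [map_mul, map_mul, map_mul, map_mul, mul_right_comm, ← map_mul χ, mul_inv_cancel, map_one,
    one_mul, mul_right_comm (ψ τ), ← map_mul ψ, mul_inv_cancel, map_one, one_mul] at h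

end FA.KroneckerWeber

end
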