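import Fermat.Agent.KroneckerWeber.Tame
import Fermat.Agent.OpenImageJ.KWTwo
import Fermat.Agent.Root.CyclotomicLevel

/-!
# Characters of finite order of `G_ℚ` are cyclotomic

For values in an abelian `p`-group the ramified primes other than `p` are removed one at a time by
characters of `ℚ(μ_q)`, and what is ramified at `p` only lies in `ℚ(μ_{p^∞})`; a finite abelian
group is seen by its `p`-parts.
-/

set_option autoImplicit false
set_option linter.unusedSectionVars false
set_option linter.style.haveILetI false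

noncomputable section

local notation "Qb" => AlgebraicClosure ℚ
local notation "GQ" => AlgebraicClosure ℚ ≃ₐ[ℚ] AlgebraicClosure ℚ

namespace FA.KroneckerWeber

/-- The field of an open kernel is finite over `ℚ` and has that kernel. -/
theorem exists_field_of_isOpen {N : Subgroup GQ} [N.Normal] (hN : IsOpen (N : Set GQ)) :
    ∃ K : IntermediateField ℚ Qb, FiniteDimensional ℚ K ∧ IsGalois ℚ K ∧
      K.fixingSubgroup = N := by
  haveI : IsGalois ℚ Qb := FA.EC.isGalois_algebraicClosure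
  have hK : (IntermediateField.fixedField N).fixingSubgroup = N :=
    InfiniteGalois.fixingSubgroup_fixedField ⟨N, Subgroup.isClosed_of_isOpen N hN⟩
  exact ⟨IntermediateField.fixedField N,
    (InfiniteGalois.isOpen_iff_finite _).mp (by rw [hK]; exact hN),
    (InfiniteGalois.normal_iff_isGalois _).mp (hK.symm ▸ ‹N.Normal›), hK⟩

/-- An element fixing all roots of unity has trivial cyclotomic character. -/
theorem cycP_eq_one {p : ℕ} [Fact p.Prime] {σ : GQ}
    (hσ : ∀ μ : Qb, ∀ n : ℕ, 0 < n → μ ^ n = 1 → σ μ = μ) : FA.JTorsion.cycP p σ = 1 :=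
  Units.ext (PadicInt.ext_of_toZModPow.mp fun n => by
    rw [FA.RT.Tate.cycP_eq_natCast (a := 1) fun μ hμ => by
      rw [pow_one, hσ μ _ (pow_pos (Fact.out : p.Prime).pos n) hμ], Nat.cast_one, Units.val_one,
      map_one])

/-- **Abelian `p`-extensions are cyclotomic.** -/
theorem eq_one_of_pGroup {p : ℕ} (hp : p.Prime) {M : Type} [CommGroup M] [Finite M]
    (hM : IsPGroup p M) (χ : GQ →* M) (hopen : IsOpen (χ.ker : Set GQ)) {σ : GQ}
    (hσ : ∀ μ : Qb, ∀ n : ℕ, 0 < n → μ ^ n = 1 → σ μ = μ) : χ σ = 1 := by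
  haveI := Fact.mk hp
  obtain ⟨K, hK, hKg, hKf⟩ := exists_field_of_isOpen hopen
  obtain ⟨S, hS⟩ := exists_unramified_set K
  suffices key : ∀ S : Finset ℕ, ∀ χ : GQ →* M, IsOpen (χ.ker : Set GQ) →
      (∀ l : ℕ, l.Prime → l ≠ p → l ∉ S → ∀ A : ValuationSubring Qb, A.LiesOverPrime l →
        A.inertiaSubgroupIn ℚ ≤ χ.ker) → χ σ = 1 from
    key S χ hopen fun l hl _ hlS A hA => hKf ▸ hS l hl hlS A hA
  intro S
  induction S using Finset.induction_on with
  | empty =>
    intro χ hopen hunr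
    obtain ⟨K, hK, -, hKf⟩ := exists_field_of_isOpen hopen
    have := hK
    have hfix : ∀ τ : GQ, (∀ x ∈ K, τ x = x) → χ τ = 1 := fun τ hτ => MonoidHom.mem_ker.mp
      (hKf ▸ (IntermediateField.mem_fixingSubgroup_iff K τ).mpr hτ)
    have hun : ∀ l : ℕ, l.Prime → l ≠ p → ∀ A : ValuationSubring Qb, A.LiesOverPrime l →
        ∀ τ ∈ A.inertiaSubgroupIn ℚ, χ τ = 1 := fun l hl hlp A hA τ hτ =>
      MonoidHom.mem_ker.mp (hunr l hl hlp (Finset.notMem_empty l) A hA hτ)
    exact FA.OpenImageJ.eq_one_of_cycP_eq_one hM χ K hfix hun (cycP_eq_one hσ)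
  | insert q S hqS ih =>
    intro χ hopen hunr
    by_cases hq : q.Prime ∧ q ≠ p
    · obtain ⟨hq, hqp⟩ := hq
      haveI := Fact.mk hq
      obtain ⟨ψ, hψo, hψ1, hψ⟩ := exists_untwist (q := q) hp hqp.symm hM χ hopen
      have h := ih (χ / ψ) (Subgroup.isOpen_mono (H₁ := χ.ker ⊓ ψ.ker) (fun τ hτ => by
          rw [MonoidHom.mem_ker, MonoidHom.div_apply, MonoidHom.mem_ker.mp hτ.1,
            MonoidHom.mem_ker.mp hτ.2, div_one])
          (by rw [Subgroup.coe_inf]; exact hopen.inter hψo)) fun l hl hlp hlS A hA τ hτ => by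
        rw [MonoidHom.mem_ker, MonoidHom.div_apply]
        rcases eq_or_ne l q with rfl | hlq
        · rw [hψ A hA τ hτ, div_self']
        · rw [hψ1 τ (omega_inertia q hl hlq hA hτ), div_one, MonoidHom.mem_ker.mp
            (hunr l hl hlp (by rw [Finset.mem_insert, not_or]; exact ⟨hlq, hlS⟩) A hA hτ)]
      rwa [MonoidHom.div_apply, hψ1 σ (omega_eq_one q fun μ hμ => hσ μ q hq.pos hμ), div_one] at h
    · exact ih χ hopen fun l hl hlp hlS A hA => hunr l hl hlp (by
        rw [Finset.mem_insert, not_or]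
        exact ⟨fun e => hq ⟨e ▸ hl, e ▸ hlp⟩, hlS⟩) A hA

/-- **Characters of `G_ℚ` with finite abelian values are trivial on what fixes all roots of
unity.** -/
theorem eq_one_of_fix_rootsOfUnity {M : Type} [CommGroup M] [Finite M] (χ : GQ →* M)
    (hopen : IsOpen (χ.ker : Set GQ)) {σ : GQ}
    (hσ : ∀ μ : Qb, ∀ n : ℕ, 0 < n → μ ^ n = 1 → σ μ = μ) : χ σ = 1 := by
  rw [← orderOf_eq_one_iff, Nat.eq_one_iff_not_exists_prime_dvd]
  intro p hp hdvd
  have hc : Nat.card M ≠ 0 := Nat.card_pos.ne'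
  obtain ⟨v, hv⟩ : ∃ v, (Nat.card M).factorization p = v := ⟨_, rfl⟩
  obtain ⟨m, hm⟩ : p ^ v ∣ Nat.card M := hv ▸ Nat.ordProj_dvd (Nat.card M) p
  have hpm : ¬ p ∣ m := by
    intro h
    have : p ^ (v + 1) ∣ Nat.card M := by
      rw [hm, pow_succ]; exact mul_dvd_mul_left _ h
    have := (hp.pow_dvd_iff_le_factorization hc).mp this
    omega
  have hP : IsPGroup p (powMonoidHom m : M →* M).range := fun ⟨_, x, rfl⟩ => ⟨v, Subtype.ext (by
    show (x ^ m) ^ p ^ v = 1
    rw [← pow_mul, mul_comm, ← hm, pow_card_eq_one'])⟩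
  have h := eq_one_of_pGroup hp hP ((powMonoidHom m : M →* M).rangeRestrict.comp χ)
    (Subgroup.isOpen_mono (fun τ hτ => MonoidHom.mem_ker.mpr (Subtype.ext (by
      show χ τ ^ m = 1
      rw [MonoidHom.mem_ker.mp hτ, one_pow]))) hopen) hσ
  exact hpm (hdvd.trans (orderOf_dvd_of_pow_eq_one (congrArg Subtype.val h)))

end FA.KroneckerWeber

end
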